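import Fermat.Agent.ORD.P3.Inst
import Fermat.Agent.ORD.P2.CoreDefs
import Fermat.Agent.TOR.T1C.Main
import Fermat.Agent.GAL.KLC.Main

/-!
# ORD / P3 : instantiation of `P2.CoreData` at level `M₁ p` over a Galois number field

`𝔽 = FF (fixF K.fixingSubgroup) (M₁ p)`, `i₁ = iFF`, `i₂ = i₁ ∘ w_p`, `U = U_p`.
-/

set_option autoImplicit false
noncomputable section

namespace Fermat.Agent.ORD.P3

open ModularCurve HahnSeries Fermat.Agent.GR Fermat.Agent.GAL Fermat.Agent.ORD.P2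
open Fermat.Agent.GAL.KLC

/-- `FrobOn` is invariant under automorphisms of the abstract field. -/
theorem FrobOn.comp_equiv {K L : Type*} [Field K] [Field L] [Algebra K L] {A : ValuationSubring L}
    {𝔽 𝔽' : Type*} [Field 𝔽] [Field 𝔽'] {p : ℕ} {s : L ≃ₐ[K] L} {i : 𝔽 →+* LaurentSeries L}
    (S : FrobOn A p s i) (e : 𝔽' ≃+* 𝔽) : FrobOn A p s (i.comp (e : 𝔽' →+* 𝔽)) where
  frob := S.frob
  lift x := by
    obtain ⟨x', h⟩ := S.lift (e x)
    exact ⟨e.symm x', by simpa using h⟩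
  lift_symm x := by
    obtain ⟨x', h⟩ := S.lift_symm (e x)
    exact ⟨e.symm x', by simpa using h⟩

theorem coeffField_mono {L : Type*} [Field L] {E E' : Subfield L} (h : E ≤ E') :
    coeffField E ≤ coeffField E' := by
  intro x hx
  rw [mem_coeffField_iff] at hx ⊢
  exact fun n => h (hx n)

variable {M₁ p : ℕ} [NeZero M₁] [NeZero p]

/-- `U_p` on `FF E (M₁ p)`. -/
def nmFF (E : Subfield Qb) (hp : p.Prime) (hpM : ¬ p ∣ M₁) : FF E (M₁ * p) →* FF E (M₁ * p) where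
  toFun x := ⟨NmL Qb p (x : LaurentSeries Qb), NmL_mem_FF hp hpM x.2⟩
  map_one' := Subtype.ext (map_one (NmL Qb p))
  map_mul' _ _ := Subtype.ext (map_mul (NmL Qb p) _ _)

@[simp] theorem coe_nmFF (E : Subfield Qb) (hp : p.Prime) (hpM : ¬ p ∣ M₁) (x : FF E (M₁ * p)) :
    ((nmFF E hp hpM x : FF E (M₁ * p)) : LaurentSeries Qb) = NmL Qb p (x : LaurentSeries Qb) := rfl

theorem toFL_nmFF (E : Subfield Qb) (hp : p.Prime) (hpM : ¬ p ∣ M₁) (x : FF E (M₁ * p)) :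
    toFL E (M₁ * p) (nmFF E hp hpM x) = TOR.GB.nmF hp hpM (toFL E (M₁ * p) x) := rfl

/-- the second expansion `i₂ = i₁ ∘ w_p`. -/
abbrev iFF2 (H : Subgroup GQ) (hp : p.Prime) (hpM : ¬ p ∣ M₁) :
    FF (fixF H) (M₁ * p) →+* LaurentSeries Qb :=
  (iFF (fixF H) (M₁ * p)).comp (wqFF H hp hpM : FF (fixF H) (M₁ * p) →+* FF (fixF H) (M₁ * p))

theorem iFF2_apply (H : Subgroup GQ) (hp : p.Prime) (hpM : ¬ p ∣ M₁) (x : FF (fixF H) (M₁ * p)) :
    iFF2 H hp hpM x = ((TOR.GB.wq M₁ p (toFL _ _ x) : FL Qb (M₁ * p)) : LaurentSeries Qb) := rfl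

theorem coe_eq_C_iff {N : ℕ} {x : FL Qb N} {c : Qb} :
    (x : LaurentSeries Qb) = HahnSeries.C c ↔ x = algebraMap Qb (FL Qb N) c := by
  rw [← ValThm_coe_algebraMap N c]
  exact Subtype.ext_iff.symm

/-- `w_p` fixes the constants. -/
theorem iFF_eq_C_iff (H : Subgroup GQ) (hp : p.Prime) (hpM : ¬ p ∣ M₁)
    (κ : FF (fixF H) (M₁ * p)) (c : Qb) :
    iFF (fixF H) (M₁ * p) κ = HahnSeries.C c ↔ iFF2 H hp hpM κ = HahnSeries.C c := by
  rw [iFF2_apply, coe_eq_C_iff]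
  have h1 : iFF (fixF H) (M₁ * p) κ = ((toFL _ _ κ : FL Qb (M₁ * p)) : LaurentSeries Qb) := rfl
  rw [h1, coe_eq_C_iff]
  constructor
  · intro h
    rw [h, AlgEquiv.commutes]
  · intro h
    have h2 := congrArg (TOR.GB.wq M₁ p) h
    rwa [TOR.GB.wq_wq hp hpM, AlgEquiv.commutes] at h2

omit [NeZero p] in
/-- `λ = unit * π ^ e₁`. -/
theorem lamPi_of_disc {A : ValuationSubring Qb} (hp : p.Prime) (hA : A.LiesOverPrime p) {ζ : Qbˣ}
    (hζ : IsPrimitiveRoot ζ p) {π : Qb} (hπ0 : π ≠ 0) (hπm : π ∈ A.nonunits) {n : ℤ}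
    (hn : A.valuation (lam ζ) = A.valuation π ^ n) : LamPi A ζ π n.toNat := by
  have hpos := exists_pos_pow_of_mem_nonunits hπm hπ0 (lam_mem_nonunits hp hA hζ.pow_eq_one) hn
  have hl : lam ζ ≠ 0 := lam_ne_zero hp hζ
  have hπn : π ^ n.toNat ≠ 0 := pow_ne_zero _ hπ0
  have hv : A.valuation (lam ζ / π ^ n.toNat) = 1 := by
    rw [map_div₀, map_pow, hn]
    conv_lhs => rw [← Int.toNat_of_nonneg hpos.le, zpow_natCast]
    rw [Int.toNat_natCast]
    exact div_self (pow_ne_zero _ ((map_ne_zero _).mpr hπ0))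
  have hmem : lam ζ / π ^ n.toNat ∈ A := (A.valuation_le_one_iff _).mp hv.le
  refine ⟨lam ζ / π ^ n.toNat, IsLocalRing.residue A ⟨_, hmem⟩, ⟨hmem, rfl⟩, ?_,
    (div_mul_cancel₀ _ hπn).symm⟩
  intro h0
  have h1 : CRed A (lam ζ / π ^ n.toNat) 0 := ⟨hmem, h0⟩
  rw [cRed_zero_iff, ValuationSubring.mem_nonunits_iff, hv] at h1
  exact lt_irrefl _ h1

/-- **`CoreData`** over `K`, as soon as `K ∋ ζ` and the separating function `θ` is `K`-rational. -/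
theorem coreData_of (hp : p.Prime) (hpM : ¬ p ∣ M₁) (A : ValuationSubring Qb)
    (hA : A.LiesOverPrime p) {ζ : Qbˣ} (hζ : IsPrimitiveRoot ζ p)
    (K : IntermediateField ℚ Qb) [FiniteDimensional ℚ K] (hζK : (ζ : Qb) ∈ K)
    {θ : FL Qb (M₁ * p)} (hθK : (θ : LaurentSeries Qb) ∈ coeffField K.toSubfield)
    (hθ1 : HasRed A (θ : LaurentSeries Qb) 1)
    (hθ2 : HasRed A ((TOR.GB.wq M₁ p θ : FL Qb (M₁ * p)) : LaurentSeries Qb) 0) :
    ∃ (π : Qb) (e₁ : ℕ), π ∈ K ∧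
      CoreData A p ζ π e₁ (iFF (fixF K.fixingSubgroup) (M₁ * p)) (iFF2 K.fixingSubgroup hp hpM)
        (nmFF (fixF K.fixingSubgroup) hp hpM) := by
  obtain ⟨π, hπK, hdisc, hD⟩ := exists_disc_numberField A hp hA K
  have D := hD (M₁ * p)
  have hlK : lam ζ ∈ K := sub_mem hζK (one_mem _)
  obtain ⟨n, hn⟩ := hdisc (lam ζ) hlK (lam_ne_zero hp hζ)
  refine ⟨π, n.toNat, hπK, ?_⟩
  refine
    { d₁ := D
      d₂ := Disc.comp_equiv D (wqFF K.fixingSubgroup hp hpM)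
      cst := iFF_eq_C_iff K.fixingSubgroup hp hpM
      U₁ := fun x => NmL_eq_normU p hζ _
      ident := ?_
      theta := ?_
      lamPi := lamPi_of_disc hp hA hζ D.pi_ne D.pi_mem hn }
  · intro u hu
    have hu' : toFL _ _ u ≠ 0 := fun h =>
      hu (Subtype.ext (congrArg (Subtype.val : FL Qb (M₁ * p) → LaurentSeries Qb) h))
    have hu0 : (u : LaurentSeries Qb) ≠ 0 := fun h => hu (Subtype.ext h)
    have h1 := TOR.GB.coe_wq_nmF hp hpM (toFL _ _ u) hu'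
    rw [iFF2_apply, iFF2_apply, toFL_nmFF, h1]
    exact div_mul_cancel₀ _ hu0
  · have hθ' : ((1 - θ : FL Qb (M₁ * p)) : LaurentSeries Qb) ∈ FF (fixF K.fixingSubgroup) (M₁ * p) := by
      rw [fixF_fixingSubgroup]
      exact ⟨(1 - θ : FL Qb (M₁ * p)).2, sub_mem (one_mem _) hθK⟩
    refine ⟨⟨_, hθ'⟩, ?_, ?_⟩
    · have := hasRed_sub' (HasRed.one (A := A)) hθ1
      rwa [sub_self] at this
    · have h2 : iFF2 K.fixingSubgroup hp hpM ⟨_, hθ'⟩
          = 1 - ((TOR.GB.wq M₁ p θ : FL Qb (M₁ * p)) : LaurentSeries Qb) := by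
        rw [iFF2_apply]
        have h3 : toFL (fixF K.fixingSubgroup) (M₁ * p) ⟨_, hθ'⟩ = 1 - θ := rfl
        rw [h3, map_sub, map_one]
        rfl
      rw [h2]
      have := hasRed_sub' (HasRed.one (A := A)) hθ2
      rwa [sub_zero] at this

/-- **instantiation of the formal core**: a Galois number field `K ⊇ K₀ ∋ ζ` over which `u` is rational, with `CoreData` and `FrobOn`. -/
theorem exists_coreData (hM : AdmLevel M₁) (hp : p.Prime) (hpM : ¬ p ∣ M₁)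
    (A : ValuationSubring Qb) (hA : A.LiesOverPrime p) {ζ : Qbˣ} (hζ : IsPrimitiveRoot ζ p)
    (K₀ : IntermediateField ℚ Qb) [FiniteDimensional ℚ K₀]
    {n : ℕ} (hn : n ≠ 0) {u : LaurentSeries Qb} (hu : u ^ n ∈ FL Qb (M₁ * p)) :
    ∃ (K : IntermediateField ℚ Qb) (π : Qb) (e₁ : ℕ) (s : GQ),
      FiniteDimensional ℚ K ∧ IsGalois ℚ K ∧ K₀ ≤ K ∧ (ζ : Qb) ∈ K ∧ π ∈ K ∧
      u ∈ coeffField K.toSubfield ∧
      CoreData A p ζ π e₁ (iFF (fixF K.fixingSubgroup) (M₁ * p)) (iFF2 K.fixingSubgroup hp hpM)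
        (nmFF (fixF K.fixingSubgroup) hp hpM) ∧
      FrobOn A p s (iFF (fixF K.fixingSubgroup) (M₁ * p)) ∧
      FrobOn A p s (iFF2 K.fixingSubgroup hp hpM) := by
  obtain ⟨θ, hθ1, hθ2⟩ := TOR.T1C.thetaC M₁ p hp hpM (spansStatement M₁) (riStatement M₁)
    (fun A hA => ctStatement M₁ p hM hp hpM A hA) A hA
  -- `K₁ ⊇ K₀(ζ)`, with `θ` rational
  have hint : IsIntegral ℚ (ζ : Qb) := (AlgebraicClosure.isAlgebraic ℚ).isIntegral.isIntegral _
  have hfd0 : FiniteDimensional ℚ (IntermediateField.adjoin ℚ {(ζ : Qb)}) :=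
    IntermediateField.adjoin.finiteDimensional hint
  have hfd1 : FiniteDimensional ℚ (K₀ ⊔ IntermediateField.adjoin ℚ {(ζ : Qb)} :
      IntermediateField ℚ Qb) := IntermediateField.finiteDimensional_sup _ _
  obtain ⟨K₁, hK₁fd, -, hK₁, hθK₁⟩ := exists_galois_level (M₁ * p) one_ne_zero
    (u := (θ : LaurentSeries Qb)) (by rw [pow_one]; exact θ.2)
    (K₀ ⊔ IntermediateField.adjoin ℚ {(ζ : Qb)})
  obtain ⟨K, hKfd, hKgal, hK, huK⟩ := exists_galois_level (M₁ * p) hn hu K₁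
  have hK₀ : K₀ ≤ K := (le_sup_left.trans hK₁).trans hK
  have hζK : (ζ : Qb) ∈ K :=
    hK (hK₁ (le_sup_right (a := K₀) (IntermediateField.mem_adjoin_simple_self ℚ (ζ : Qb))))
  have hθK : (θ : LaurentSeries Qb) ∈ coeffField K.toSubfield :=
    coeffField_mono (fun x hx => hK hx) hθK₁
  obtain ⟨π, e₁, hπK, CD⟩ := coreData_of hp hpM A hA hζ K hζK hθK hθ1 hθ2
  obtain ⟨s, hs⟩ := Fermat.Agent.Lib.FrobeniusExists.exists_isFrobeniusAt_rat A hp hA
  have S := frobOn_numberField A K hs (M₁ * p)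
  exact ⟨K, π, e₁, s, hKfd, hKgal, hK₀, hζK, hπK, huK, CD, S,
    FrobOn.comp_equiv S (wqFF K.fixingSubgroup hp hpM)⟩

end Fermat.Agent.ORD.P3
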