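import Fermat.Agent.ORD.P2.TopCore
import Fermat.Agent.ORD.P3.CoreInst
import Fermat.Agent.ORD.Contracts

/-!
# ORD / P3 : the contract `ORD.CoreStatement`
-/

set_option autoImplicit false
noncomputable section

namespace Fermat.Agent.ORD.P3

open ModularCurve HahnSeries Fermat.Agent.GR Fermat.Agent.GAL Fermat.Agent.ORD.P2

theorem iterate_NmL_mem_coeffField {L : Type*} [Field L] {E : Subfield L} (ℓ : ℕ) [NeZero ℓ]
    {x : LaurentSeries L} (hx : x ∈ coeffField E) (n : ℕ) : (NmL L ℓ)^[n] x ∈ coeffField E := by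
  induction n with
  | zero => exact hx
  | succ n ih =>
    rw [Function.iterate_succ_apply']
    exact NmL_mem_coeffField ℓ ih

/-- **(CORE)**. -/
theorem core : CoreStatement := by
  intro M₁ p _ hM0 hM hp hp2 hpM A hA s0 hs0 a hsa ha u hu hred hn hs0u
  have : NeZero M₁ := ⟨hM0⟩
  obtain ⟨n, hn0, hnu⟩ := hn
  obtain ⟨ζ, hζ⟩ := exists_primitiveRoot_Qb p
  have hζp : (ζ : Qb) ^ p = 1 := by
    rw [← Units.val_pow_eq_pow_val, hζ.pow_eq_one, Units.val_one]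
  obtain ⟨K, π, e₁, s, hKfd, hKgal, -, hζK, hπK, huK, CD, -, S⟩ :=
    exists_coreData hM hp hpM A hA hζ ⊥ hp.ne_zero hu.pow_mem
  have ha' : ¬ (p : ℤ) ∣ (a : ℤ) - 1 := by
    intro h
    apply ha
    have h1 : (1 : ℤ) ≡ (a : ℤ) [ZMOD p] := (Int.modEq_iff_dvd).mpr h
    have h2 : ((1 : ℕ) : ℤ) ≡ ((a : ℕ) : ℤ) [ZMOD (p : ℕ)] := by exact_mod_cast h1
    exact ((Int.natCast_modEq_iff).mp h2).symm
  have huK' : u ∈ coeffField (fixF K.fixingSubgroup) := by rwa [fixF_fixingSubgroup]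
  have hh : u ^ p ∈ FF (fixF K.fixingSubgroup) (M₁ * p) :=
    mem_FF_iff.mpr ⟨hu.pow_mem, pow_mem huK' p⟩
  have hg : (NmL Qb p)^[n] u / u ∈ FF (fixF K.fixingSubgroup) (M₁ * p) :=
    mem_FF_iff.mpr ⟨hnu, div_mem (iterate_NmL_mem_coeffField p huK' n) huK'⟩
  exact core_of_field hM hp hp2 hpM hA hζ hs0 (hsa _ hζp) ha' CD S (fun x => x.2.1)
    (fun x => rfl) hu hred hn0 (h := ⟨_, hh⟩) (g₀ := ⟨_, hg⟩) rfl rfl hs0u

end Fermat.Agent.ORD.P3
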