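import Fermat.Agent.ORD.P1.Inertia
import Fermat.Agent.S55.P.ValueGroup
import Fermat.Agent.S55.P.Roots
import Fermat.Agent.S13.Inertia
import Fermat.Agent.S55.P.Val

/-!
# ORD / P3 : arithmetic input

* `V0` : the value group of the field fixed by `H₁ = {τ ∈ I_A | τ ζ_p = ζ_p}` is `|ζ_p - 1|^ℤ`;
* `exists_uniformizer` : number fields are discretely valued.
-/

set_option autoImplicit false

namespace Fermat.Agent.ORD.P3

open Fermat.Agent.S55.P NumberField IsDedekindDomain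

local notation "Qbar" => AlgebraicClosure ℚ
local notation "GQ" => (AlgebraicClosure ℚ ≃ₐ[ℚ] AlgebraicClosure ℚ)

/-- inertia preserves the valuation. -/
theorem valuation_inertia (A : ValuationSubring Qbar) {τ : GQ} (hτ : τ ∈ A.inertiaSubgroupIn ℚ)
    (x : Qbar) : A.valuation (τ x) = A.valuation x :=
  (Fermat.Agent.S13.isInertial_of_mem_inertia A τ hτ).map_val x

/-- `|p| = |ζ_p - 1|^(p-1)`. -/
theorem valuation_natCast_eq (A : ValuationSubring Qbar) {p : ℕ} (hp : p.Prime)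
    (hA : A.LiesOverPrime p) {ζ : Qbar} (hζ : IsPrimitiveRoot ζ p) :
    A.valuation (p : Qbar) = A.valuation (ζ - 1) ^ (p - 1) := by
  have : Fact p.Prime := ⟨hp⟩
  have : NeZero p := ⟨hp.ne_zero⟩
  have h1 : (p : Qbar) = ∏ μ ∈ primitiveRoots p Qbar, (1 - μ) := by
    have h2 := Polynomial.cyclotomic_eq_prod_X_sub_primitiveRoots hζ
    have h3 := congrArg (Polynomial.eval 1) h2
    rw [Polynomial.eval_one_cyclotomic_prime, Polynomial.eval_prod] at h3
    simpa using h3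
  rw [h1, map_prod]
  have h4 : ∀ μ ∈ primitiveRoots p Qbar, A.valuation (1 - μ) = A.valuation (ζ - 1) := by
    intro μ hμ
    rw [mem_primitiveRoots hp.pos] at hμ
    obtain ⟨a, -, hcop, rfl⟩ := hζ.isPrimitiveRoot_iff.mp hμ
    have ha : ¬ p ∣ a := fun h => by
      have := Nat.Coprime.eq_one_of_dvd hcop.symm h
      exact hp.one_lt.ne' this
    obtain ⟨τ, hτ, hτζ⟩ := P1.exists_inertia_pow A hp hA 1 a ha
    have h5 : τ (ζ - 1) = -(1 - ζ ^ a) := by
      rw [map_sub, map_one, hτζ ζ (by rw [pow_one]; exact hζ.pow_eq_one)]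
      ring
    rw [← valuation_inertia A hτ (ζ - 1), h5, Valuation.map_neg]
  rw [Finset.prod_congr rfl h4, Finset.prod_const, hζ.card_primitiveRoots, Nat.totient_prime hp]

/-- **(V0)** an element fixed by `H₁ = {τ ∈ I_A | τ ζ_p = ζ_p}` has the valuation of a power of
`λ = ζ_p - 1`. -/
theorem V0 (A : ValuationSubring Qbar) {p : ℕ} (hp : p.Prime)
    (hA : A.LiesOverPrime p) {ζ : Qbar} (hζ : IsPrimitiveRoot ζ p) {x : Qbar} (hx : x ≠ 0)
    (hfix : ∀ τ ∈ A.inertiaSubgroupIn ℚ, τ ζ = ζ → τ x = x) :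
    ∃ n : ℤ, A.valuation x = A.valuation (ζ - 1) ^ n := by
  have : Fact p.Prime := ⟨hp⟩
  have hex : ∀ u : (ZMod p)ˣ, ∃ τ ∈ A.inertiaSubgroupIn ℚ, τ ζ = ζ ^ (u : ZMod p).val := by
    intro u
    have hu : ¬ p ∣ (u : ZMod p).val := by
      intro h
      have h0 : ((u : ZMod p).val : ZMod p) = 0 := (ZMod.natCast_eq_zero_iff _ _).mpr h
      rw [ZMod.natCast_zmod_val] at h0
      exact u.ne_zero h0
    obtain ⟨τ, hτ, h⟩ := P1.exists_inertia_pow A hp hA 1 _ hu
    exact ⟨τ, hτ, h ζ (by rw [pow_one]; exact hζ.pow_eq_one)⟩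
  choose t ht htζ using hex
  set N : Qbar := ∏ u : (ZMod p)ˣ, t u x with hN
  have hN0 : N ≠ 0 := Finset.prod_ne_zero_iff.mpr fun u _ => (map_ne_zero _).mpr hx
  have hNfix : ∀ σ ∈ A.inertiaSubgroupIn ℚ, σ N = N := by
    intro σ hσ
    -- `σ ζ = ζ ^ b`
    have hσζ : IsPrimitiveRoot (σ ζ) p := hζ.map_of_injective σ.injective
    obtain ⟨b, -, hcop, hb⟩ := hζ.isPrimitiveRoot_iff.mp hσζ
    let w : (ZMod p)ˣ := ZMod.unitOfCoprime b hcop
    have hw : ((w : ZMod p)).val = b % p := by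
      rw [ZMod.coe_unitOfCoprime, ZMod.val_natCast]
    have key : ∀ u : (ZMod p)ˣ, σ (t u x) = t (u * w) x := by
      intro u
      have h1 : ((t (u * w))⁻¹ * σ * t u) ∈ A.inertiaSubgroupIn ℚ :=
        mul_mem (mul_mem (inv_mem (ht _)) hσ) (ht u)
      have h2 : ((t (u * w))⁻¹ * σ * t u) ζ = ζ := by
        rw [AlgEquiv.mul_apply, AlgEquiv.mul_apply, htζ u, map_pow, ← hb]
        have h3 : (ζ ^ b) ^ (u : ZMod p).val = t (u * w) ζ := by
          rw [htζ, Units.val_mul, ZMod.val_mul, hw, ← pow_mul]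
          rw [pow_eq_pow_mod (b * (u : ZMod p).val) hζ.pow_eq_one]
          congr 1
          rw [mul_comm b, Nat.mul_mod_mod]
        rw [h3]
        exact (t (u * w)).symm_apply_apply ζ
      have h4 := hfix _ h1 h2
      rw [AlgEquiv.mul_apply, AlgEquiv.mul_apply] at h4
      have h5 := congrArg (t (u * w)) h4
      rwa [← AlgEquiv.mul_apply, mul_inv_cancel, AlgEquiv.one_apply] at h5
    rw [hN, map_prod]
    rw [Finset.prod_congr rfl fun u _ => key u]
    exact Fintype.prod_equiv (Equiv.mulRight w) _ _ fun u => rfl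
  obtain ⟨n, hn⟩ := exists_zpow_mul_isUnitAt A hp hA hN0 hNfix
  have h1 : A.valuation (N * (p : Qbar) ^ (-n)) = 1 := roots_valuation_eq_one hn
  have hp0 : A.valuation (p : Qbar) ≠ 0 :=
    (Valuation.ne_zero_iff _).mpr (by exact_mod_cast hp.ne_zero)
  have h2 : A.valuation N = A.valuation (p : Qbar) ^ n := by
    rw [map_mul, map_zpow₀, zpow_neg] at h1
    exact (mul_inv_eq_one₀ (zpow_ne_zero _ hp0)).mp h1
  have h3 : A.valuation N = A.valuation x ^ (p - 1) := by
    rw [hN, map_prod, Finset.prod_congr rfl fun u _ => valuation_inertia A (ht u) x,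
      Finset.prod_const, Finset.card_univ, ZMod.card_units]
  refine ⟨n, ?_⟩
  have h4 : A.valuation x ^ (p - 1) = (A.valuation (ζ - 1) ^ n) ^ (p - 1) := by
    rw [← h3, h2, valuation_natCast_eq A hp hA hζ, ← zpow_natCast, ← zpow_natCast, ← zpow_mul,
      ← zpow_mul, mul_comm]
  have hp1 : p - 1 ≠ 0 := by have := hp.two_le; omega
  exact (pow_left_inj₀ zero_le zero_le hp1).mp h4

open WithZero in
/-- **discreteness**: a number field `K ⊆ ℚ̄` has a uniformiser at the place `A`. -/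
theorem exists_uniformizer (K : IntermediateField ℚ Qbar) [FiniteDimensional ℚ K]
    (A : ValuationSubring Qbar) {p : ℕ} (hp : p.Prime) (hA : A.LiesOverPrime p) :
    ∃ π ∈ K, π ≠ 0 ∧ π ∈ A.nonunits ∧
      ∀ x ∈ K, x ≠ 0 → ∃ n : ℤ, A.valuation x = A.valuation π ^ n := by
  have hnf : NumberField K := { to_charZero := inferInstance, to_finiteDimensional := inferInstance }
  let w : HeightOneSpectrum (𝓞 K) :=
    ⟨primeUnder K A, inferInstance, primeUnder_ne_bot hp.ne_zero hA⟩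
  obtain ⟨π, hπ⟩ := w.valuation_exists_uniformizer K
  have hπ0 : π ≠ 0 := by
    rintro rfl
    rw [map_zero] at hπ
    exact exp_ne_zero hπ.symm
  have hπQ : (π : Qbar) ≠ 0 := by simpa using hπ0
  refine ⟨π, π.2, hπQ, ?_, ?_⟩
  · apply (valuation_lt_one_iff K w A rfl π).mp
    rw [hπ]
    rw [← exp_zero, exp_lt_exp]
    norm_num
  · intro x hx hx0
    have hx0' : (⟨x, hx⟩ : K) ≠ 0 := fun h => hx0 (congrArg Subtype.val h)
    have hv0 : w.valuation K ⟨x, hx⟩ ≠ 0 := (Valuation.ne_zero_iff _).mpr hx0'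
    set m : ℤ := log (w.valuation K ⟨x, hx⟩) with hm
    have h1 : w.valuation K ((⟨x, hx⟩ : K) * π ^ m) = 1 := by
      rw [map_mul, map_zpow₀, hπ, ← exp_log hv0, ← hm, ← exp_zsmul, ← exp_add, ← exp_zero, exp_inj]
      simp
    have h2 := (valuation_eq_one_iff K w A rfl _).mp h1
    have h3 : (((⟨x, hx⟩ : K) * π ^ m : K) : Qbar) = x * (π : Qbar) ^ m := by
      push_cast
      rfl
    rw [h3] at h2
    have h4 := roots_valuation_eq_one h2
    refine ⟨-m, ?_⟩
    have hπv : A.valuation (π : Qbar) ≠ 0 := (Valuation.ne_zero_iff _).mpr hπQ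
    rw [map_mul, map_zpow₀] at h4
    rw [zpow_neg]
    exact eq_inv_of_mul_eq_one_left h4

end Fermat.Agent.ORD.P3
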