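import Fermat.Agent.GR.GaussRed
import Fermat.Agent.ORD.P2.Defs

/-!
# ORD / P3 : Laurent series with coefficients in a subfield `E ⊆ L`; descent of fractions

`x ∈ GField L` (e.g. `x ∈ FL L M`) with all coefficients in `E` is a quotient of two `E`-linear
combinations of integral series.  Consequences: (NORM) the Gauss norm of `x` is the valuation of a
constant of `E`, (CONST) the reduction of `x` has coefficients in the residue field of `E`.
-/

set_option autoImplicit false
noncomputable section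

namespace Fermat.Agent.ORD.P3

open ModularCurve HahnSeries Fermat.Agent.GR Fermat.Agent.ORD.P2

variable {L : Type*} [Field L]

/-- Laurent series with coefficients in the subfield `E`. -/
def coeffField (E : Subfield L) : Subfield (LaurentSeries L) := (coeffMap E.subtype).fieldRange

theorem mem_coeffField_iff {E : Subfield L} {x : LaurentSeries L} :
    x ∈ coeffField E ↔ ∀ n, x.coeff n ∈ E := by
  constructor
  · rintro ⟨y, rfl⟩ n
    exact (y.coeff n).2
  · intro h
    refine ⟨⟨fun k => ⟨x.coeff k, h k⟩, x.isPWO_support.mono fun k hk => ?_⟩, ?_⟩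
    · intro h0
      exact hk (Subtype.ext h0)
    · ext k
      rfl

theorem C_mem_coeffField {E : Subfield L} {c : L} (hc : c ∈ E) :
    (HahnSeries.C c : LaurentSeries L) ∈ coeffField E := by
  rw [mem_coeffField_iff]
  intro n
  rw [HahnSeries.C_apply, HahnSeries.coeff_single]
  split_ifs
  · exact hc
  · exact E.zero_mem

theorem smul_mem_coeffField {E : Subfield L} {c : L} (hc : c ∈ E) {x : LaurentSeries L}
    (hx : x ∈ coeffField E) : c • x ∈ coeffField E := by
  rw [← HahnSeries.C_mul_eq_smul]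
  exact mul_mem (C_mem_coeffField hc) hx

/-! ### applying an `E`-linear map to the coefficients -/

section Functional

variable {E : Subfield L} (φ : L →ₗ[E] L)

theorem map_mul_of_mem_coeffField {x : LaurentSeries L} (hx : x ∈ coeffField E)
    (Q : LaurentSeries L) : (x * Q).map φ = x * Q.map φ := by
  rw [mem_coeffField_iff] at hx
  ext n
  have hsupp : (Q.map φ).support ⊆ Q.support := by
    intro k hk h0
    apply hk
    show φ (Q.coeff k) = 0
    have h0' : Q.coeff k = 0 := by simpa using h0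
    rw [h0', map_zero]
  rw [HahnSeries.map_coeff, HahnSeries.coeff_mul, HahnSeries.coeff_mul_right' Q.isPWO_support hsupp,
    map_sum]
  refine Finset.sum_congr rfl fun ij _ => ?_
  have h1 : x.coeff ij.1 * Q.coeff ij.2 = (⟨x.coeff ij.1, hx ij.1⟩ : E) • Q.coeff ij.2 := rfl
  rw [h1, map_smul]
  rfl

theorem map_smul_mem_PSer {P : LaurentSeries L} (hP : P ∈ PSer L) (r : L) :
    (r • P).map φ ∈ PSer L := by
  induction hP using Submodule.span_induction generalizing r with
  | mem x hx =>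
    obtain ⟨J, rfl⟩ := hx
    have : (r • intS L J).map φ = φ r • intS L J := by
      ext n
      rw [HahnSeries.map_coeff, HahnSeries.coeff_smul, HahnSeries.coeff_smul, coeffMap_coeff,
        smul_eq_mul, smul_eq_mul]
      have h1 : r * (Int.castRingHom L) (J.coeff n) = ((J.coeff n : ℤ) : E) • r := by
        rw [mul_comm]
        show _ = (((J.coeff n : ℤ) : E) : L) * r
        simp
      rw [h1, map_smul]
      show (((J.coeff n : ℤ) : E) : L) * φ r = _
      rw [mul_comm]
      simp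
    rw [this]
    exact (PSer L).smul_mem _ (intS_mem_PSer J)
  | zero =>
    have : ((r • (0 : LaurentSeries L))).map φ = 0 := by
      ext n
      simp
    rw [this]
    exact (PSer L).zero_mem
  | add y z _ _ hy hz =>
    have : (r • (y + z)).map φ = (r • y).map φ + (r • z).map φ := by
      ext n
      simp
    rw [this]
    exact (PSer L).add_mem (hy r) (hz r)
  | smul s y _ hy =>
    rw [smul_smul]
    exact hy _

theorem map_mem_PSer {P : LaurentSeries L} (hP : P ∈ PSer L) : P.map φ ∈ PSer L := by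
  have := map_smul_mem_PSer φ hP 1
  rwa [one_smul] at this

end Functional

/-- **descent of fractions**. -/
theorem exists_frac (E : Subfield L) {x : LaurentSeries L} (hx : x ∈ GField L)
    (hxE : x ∈ coeffField E) :
    ∃ P Q : LaurentSeries L, P ∈ PSer L ∧ Q ∈ PSer L ∧ P ∈ coeffField E ∧ Q ∈ coeffField E ∧
      Q ≠ 0 ∧ x * Q = P := by
  obtain ⟨P, hP, Q, hQ, rfl⟩ := Subfield.mem_closure_iff.mp hx
  rcases eq_or_ne Q 0 with rfl | hQ0
  · exact ⟨0, 1, (PSer L).zero_mem, one_mem_PSer, zero_mem _, one_mem _, one_ne_zero, by simp⟩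
  obtain ⟨n, hn⟩ : ∃ n, Q.coeff n ≠ 0 := by
    by_contra hcon
    push Not at hcon
    exact hQ0 (HahnSeries.ext (funext hcon))
  obtain ⟨ψ, hψ⟩ : ∃ ψ : Module.Dual E L, ψ (Q.coeff n) ≠ 0 := by
    by_contra hcon
    push Not at hcon
    exact hn ((Module.forall_dual_apply_eq_zero_iff E _).mp hcon)
  let φ : L →ₗ[E] L := (Algebra.linearMap E L).comp ψ
  have hφE : ∀ y : LaurentSeries L, y.map φ ∈ coeffField E := by
    intro y
    rw [mem_coeffField_iff]
    intro k
    exact (ψ (y.coeff k)).2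
  refine ⟨P.map φ, Q.map φ, map_mem_PSer φ (subring_closure_le_PSer hP),
    map_mem_PSer φ (subring_closure_le_PSer hQ), hφE P, hφE Q, ?_, ?_⟩
  · intro h0
    have h1 := congrArg (fun f : LaurentSeries L => f.coeff n) h0
    apply hψ
    apply Subtype.ext
    exact h1
  · rw [← map_mul_of_mem_coeffField φ hxE, div_mul_cancel₀ _ hQ0]

/-- normalisation of an `E`-rational combination of integral series. -/
theorem exists_normalize_coeffField (A : ValuationSubring L) (E : Subfield L)
    {P : LaurentSeries L} (hP : P ∈ PSer L) (hPE : P ∈ coeffField E) (hP0 : P ≠ 0) :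
    ∃ c ∈ E, c ≠ 0 ∧ ∃ y : LaurentSeries A, coeffMap A.subtype y = HahnSeries.C c * P ∧
      coeffMap (IsLocalRing.residue A) y ≠ 0 := by
  obtain ⟨k₀, hk₀, hmax⟩ := exists_max_coeff A hP hP0
  have hmem : ∀ k, ((P.coeff k₀)⁻¹ • P).coeff k ∈ A := by
    intro k
    rw [HahnSeries.coeff_smul, smul_eq_mul, ← A.valuation_le_one_iff, map_mul, map_inv₀]
    have hpos : A.valuation (P.coeff k₀) ≠ 0 := (map_ne_zero _).mpr hk₀
    rw [inv_mul_le_iff₀ (zero_lt_iff.mpr hpos), mul_one]
    exact hmax k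
  obtain ⟨y, hy⟩ := exists_int_of_coeff_mem A _ hmem
  refine ⟨(P.coeff k₀)⁻¹, E.inv_mem (mem_coeffField_iff.mp hPE k₀), inv_ne_zero hk₀, y,
    by rw [hy, HahnSeries.C_mul_eq_smul], ?_⟩
  intro h0
  have h1 : y.coeff k₀ = 1 := by
    apply Subtype.ext
    have := congrArg (fun f => HahnSeries.coeff f k₀) hy
    simp only [coeffMap_coeff, HahnSeries.coeff_smul, smul_eq_mul] at this
    rw [inv_mul_cancel₀ hk₀] at this
    exact this
  have h2 := congrArg (fun f => HahnSeries.coeff f k₀) h0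
  simp only [coeffMap_coeff, h1, map_one, HahnSeries.coeff_zero] at h2
  exact one_ne_zero h2

/-- the residue field of `E` at `A`, as a subfield of the residue field of `A`. -/
def resField (A : ValuationSubring L) (E : Subfield L) : Subfield (kk A) where
  carrier := {cb | ∃ c ∈ E, CRed A c cb}
  mul_mem' := by
    rintro _ _ ⟨c, hc, h⟩ ⟨d, hd, h'⟩
    exact ⟨c * d, E.mul_mem hc hd, h.mul h'⟩
  one_mem' := ⟨1, E.one_mem, CRed.one⟩
  add_mem' := by
    rintro _ _ ⟨c, hc, h⟩ ⟨d, hd, h'⟩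
    exact ⟨c + d, E.add_mem hc hd, h.add h'⟩
  zero_mem' := ⟨0, E.zero_mem, CRed.zero⟩
  neg_mem' := by
    rintro _ ⟨c, hc, h⟩
    exact ⟨-c, E.neg_mem hc, h.neg⟩
  inv_mem' := by
    rintro cb ⟨c, hc, h⟩
    rcases eq_or_ne cb 0 with rfl | hcb
    · rw [inv_zero]
      exact ⟨0, E.zero_mem, CRed.zero⟩
    · exact ⟨c⁻¹, E.inv_mem hc, h.inv hcb⟩

theorem mem_resField_iff {A : ValuationSubring L} {E : Subfield L} {cb : kk A} :
    cb ∈ resField A E ↔ ∃ c ∈ E, CRed A c cb := Iff.rfl

theorem red_mem_coeffField {A : ValuationSubring L} {E : Subfield L} {y : LaurentSeries A}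
    (hy : coeffMap A.subtype y ∈ coeffField E) :
    coeffMap (IsLocalRing.residue A) y ∈ coeffField (resField A E) := by
  rw [mem_coeffField_iff] at hy ⊢
  intro n
  exact ⟨_, hy n, CRed.mk (y.coeff n)⟩

/-- **normal form** of an `E`-rational element of `GField L`: `x = c · y₁ / y₂`, `c ∈ Eˣ`,
`y₁, y₂` integral, `E`-rational, with non zero reductions. -/
theorem exists_normal_form (A : ValuationSubring L) (E : Subfield L) {x : LaurentSeries L}
    (hx : x ∈ GField L) (hxE : x ∈ coeffField E) (hx0 : x ≠ 0) :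
    ∃ c ∈ E, c ≠ 0 ∧ ∃ y₁ y₂ : LaurentSeries A,
      coeffMap A.subtype y₁ ∈ coeffField E ∧ coeffMap A.subtype y₂ ∈ coeffField E ∧
      coeffMap (IsLocalRing.residue A) y₁ ≠ 0 ∧ coeffMap (IsLocalRing.residue A) y₂ ≠ 0 ∧
      x = HahnSeries.C c * (coeffMap A.subtype y₁ / coeffMap A.subtype y₂) := by
  obtain ⟨P, Q, hP, hQ, hPE, hQE, hQ0, hxQ⟩ := exists_frac E hx hxE
  have hP0 : P ≠ 0 := by
    rw [← hxQ]
    exact mul_ne_zero hx0 hQ0
  obtain ⟨c₁, hc₁E, hc₁, y₁, hy₁, hr₁⟩ := exists_normalize_coeffField A E hP hPE hP0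
  obtain ⟨c₂, hc₂E, hc₂, y₂, hy₂, hr₂⟩ := exists_normalize_coeffField A E hQ hQE hQ0
  refine ⟨c₂ / c₁, E.div_mem hc₂E hc₁E, div_ne_zero hc₂ hc₁, y₁, y₂, ?_, ?_, hr₁, hr₂, ?_⟩
  · rw [hy₁]
    exact mul_mem (C_mem_coeffField hc₁E) hPE
  · rw [hy₂]
    exact mul_mem (C_mem_coeffField hc₂E) hQE
  · rw [hy₁, hy₂, ← hxQ, map_div₀]
    have h1 : (HahnSeries.C c₁ : LaurentSeries L) ≠ 0 := C_ne_zero' hc₁
    have h2 : (HahnSeries.C c₂ : LaurentSeries L) ≠ 0 := C_ne_zero' hc₂
    field_simp

/-- variant: `HasRed A (C c * x) z` with `c ∈ Eˣ`, `z ≠ 0` with coefficients in the residue field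
of `E`. -/
theorem exists_hasRed_coeffField (A : ValuationSubring L) (E : Subfield L) {x : LaurentSeries L}
    (hx : x ∈ GField L) (hxE : x ∈ coeffField E) (hx0 : x ≠ 0) :
    ∃ c ∈ E, c ≠ 0 ∧ ∃ z : LaurentSeries (kk A), z ≠ 0 ∧ z ∈ coeffField (resField A E) ∧
      HasRed A (HahnSeries.C c * x) z := by
  obtain ⟨c, hcE, hc, y₁, y₂, h₁, h₂, hr₁, hr₂, rfl⟩ := exists_normal_form A E hx hxE hx0
  refine ⟨c⁻¹, E.inv_mem hcE, inv_ne_zero hc, _, div_ne_zero hr₁ hr₂,
    div_mem (red_mem_coeffField h₁) (red_mem_coeffField h₂), ?_⟩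
  have h := (HasRed.of_int y₁).div (HasRed.of_int y₂) hr₂
  rwa [← mul_assoc, ← map_mul, inv_mul_cancel₀ hc, map_one, one_mul]

/-- if `C c * x` and `x` both have non zero reductions then `c` is a unit of `A`. -/
theorem cRed_of_hasRed {A : ValuationSubring L} {c : L} (hc : c ≠ 0) {x : LaurentSeries L}
    {z z' : LaurentSeries (kk A)} (hz : z ≠ 0) (hz' : z' ≠ 0) (h : HasRed A x z)
    (h' : HasRed A (HahnSeries.C c * x) z') : ∃ cb : kk A, cb ≠ 0 ∧ CRed A c cb := by
  have hcA : c ∈ A := by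
    by_contra hcon
    have h1 : c⁻¹ ∈ A.nonunits := by
      rw [ValuationSubring.mem_nonunits_iff, map_inv₀]
      rw [← A.valuation_le_one_iff, not_le] at hcon
      exact inv_lt_one_of_one_lt₀ hcon
    have h2 := hasRed_C_mul_zero h1 h'
    rw [← mul_assoc, ← map_mul, inv_mul_cancel₀ hc, map_one, one_mul] at h2
    exact hz (h.unique h2)
  refine ⟨IsLocalRing.residue A ⟨c, hcA⟩, ?_, hcA, rfl⟩
  intro h0
  have h1 : c ∈ A.nonunits := cRed_zero_iff.mp ⟨hcA, h0⟩
  exact hz' (h'.unique (hasRed_C_mul_zero h1 h))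

/-- **(CONST), general form**: reductions of `E`-rational functions have coefficients in the
residue field of `E`. -/
theorem hasRed_mem_coeffField {A : ValuationSubring L} {E : Subfield L} {x : LaurentSeries L}
    (hx : x ∈ GField L) (hxE : x ∈ coeffField E) {z : LaurentSeries (kk A)} (h : HasRed A x z) :
    z ∈ coeffField (resField A E) := by
  rcases eq_or_ne z 0 with rfl | hz
  · exact zero_mem _
  have hx0 := h.ne_zero hz
  obtain ⟨c, hcE, hc, z', hz', hz'E, h'⟩ := exists_hasRed_coeffField A E hx hxE hx0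
  obtain ⟨cb, hcb, hcr⟩ := cRed_of_hasRed hc hz hz' h h'
  have h2 := (hasRed_C_mul hcr h).unique h'
  have h3 : z = HahnSeries.C cb⁻¹ * z' := by
    rw [← h2, ← mul_assoc, ← map_mul, inv_mul_cancel₀ hcb, map_one, one_mul]
  rw [h3]
  exact mul_mem (C_mem_coeffField (inv_mem ⟨c, hcE, hcr⟩)) hz'E

/-- **(CONST)**: if an `E`-rational function reduces to a constant, the constant lifts to `E`. -/
theorem exists_cRed_of_hasRed_C {A : ValuationSubring L} {E : Subfield L} {x : LaurentSeries L}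
    (hx : x ∈ GField L) (hxE : x ∈ coeffField E) {cb : kk A} (h : HasRed A x (HahnSeries.C cb)) :
    ∃ c ∈ E, CRed A c cb := by
  have h1 := mem_coeffField_iff.mp (hasRed_mem_coeffField hx hxE h) 0
  rwa [HahnSeries.C_apply, HahnSeries.coeff_single_same] at h1

/-- **(NORM)**: if the valuation of `E` is discrete with uniformiser `π`, every `E`-rational function
is a power of `π` times a function with non zero reduction. -/
theorem exists_zpow_hasRed {A : ValuationSubring L} {E : Subfield L} {π : L} (hπ0 : π ≠ 0)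
    (hdisc : ∀ c ∈ E, c ≠ 0 → ∃ n : ℤ, A.valuation c = A.valuation π ^ n) {x : LaurentSeries L}
    (hx : x ∈ GField L) (hxE : x ∈ coeffField E) (hx0 : x ≠ 0) :
    ∃ n : ℤ, ∃ z : LaurentSeries (kk A), z ≠ 0 ∧ HasRed A (x * HahnSeries.C π ^ n) z := by
  obtain ⟨c, hcE, hc, z, hz, -, h⟩ := exists_hasRed_coeffField A E hx hxE hx0
  obtain ⟨n, hn⟩ := hdisc c hcE hc
  -- `u = π ^ n / c` is a unit
  have hu0 : π ^ n / c ≠ 0 := div_ne_zero (zpow_ne_zero _ hπ0) hc
  have hcv : A.valuation c ≠ 0 := (map_ne_zero _).mpr hc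
  have hu1 : A.valuation (π ^ n / c) = 1 := by
    rw [map_div₀, map_zpow₀, ← hn, div_self hcv]
  have huA : π ^ n / c ∈ A := (A.valuation_le_one_iff _).mp hu1.le
  have hub : IsLocalRing.residue A ⟨π ^ n / c, huA⟩ ≠ 0 := by
    intro h0
    have h1 : π ^ n / c ∈ A.nonunits := cRed_zero_iff.mp ⟨huA, h0⟩
    rw [ValuationSubring.mem_nonunits_iff, hu1] at h1
    exact lt_irrefl _ h1
  refine ⟨n, HahnSeries.C (IsLocalRing.residue A ⟨π ^ n / c, huA⟩) * z,
    mul_ne_zero (C_ne_zero' hub) hz, ?_⟩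
  have h2 := hasRed_C_mul (⟨huA, rfl⟩ : CRed A (π ^ n / c) _) h
  have h3 : HahnSeries.C (π ^ n / c) * (HahnSeries.C c * x) = x * HahnSeries.C π ^ n := by
    rw [← mul_assoc, ← map_mul, div_mul_cancel₀ _ hc, map_zpow₀, mul_comm]
  rwa [h3] at h2

end Fermat.Agent.ORD.P3
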