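import Fermat.Agent.ORD.P3.Coeff
import Fermat.Agent.ORD.P2.FFDefs
import Fermat.Agent.GAL.ESR.Field
import Fermat.Agent.TOR.GB.Norm

/-!
# ORD / P3 : the field `FF E M` of `E`-rational modular functions of level `M`

`FF E M = FL Qb M ∩ E((q))`.  `Disc`, `FrobOn` (in the sense of `ORD/P2/FFDefs`), stability under
`T_p`, `U_p`, `V_p`, `w_p`, Galois.
-/

set_option autoImplicit false
noncomputable section

namespace Fermat.Agent.ORD.P3

open ModularCurve HahnSeries Fermat.Agent.GR Fermat.Agent.GAL Fermat.Agent.ORD.P2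

/-! ### operators on `coeffField` -/

section Ops

variable {L : Type*} [Field L] {E : Subfield L}

theorem NmL_mem_coeffField (ℓ : ℕ) [NeZero ℓ] {x : LaurentSeries L} (hx : x ∈ coeffField E) :
    NmL L ℓ x ∈ coeffField E := by
  obtain ⟨y, rfl⟩ := hx
  exact ⟨NmL E ℓ y, NmL_coeffMap _ ℓ y⟩

theorem qExpand_mem_coeffField (ℓ : ℕ) [NeZero ℓ] {x : LaurentSeries L} (hx : x ∈ coeffField E) :
    qExpand L ℓ x ∈ coeffField E := by
  obtain ⟨y, rfl⟩ := hx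
  exact ⟨qExpand E ℓ y, GR.coeffMap_qExpand _ ℓ y⟩

theorem heckeS_mem_coeffField (ℓ : ℕ) [NeZero ℓ] {x : LaurentSeries L} (hx : x ∈ coeffField E) :
    heckeS L ℓ x ∈ coeffField E := by
  obtain ⟨y, rfl⟩ := hx
  exact ⟨heckeS E ℓ y, heckeS_coeffMap _ ℓ y⟩

theorem coeffMap_mem_coeffField {φ : L →+* L} (hφ : ∀ c ∈ E, φ c ∈ E) {x : LaurentSeries L}
    (hx : x ∈ coeffField E) : coeffMap φ x ∈ coeffField E := by
  rw [mem_coeffField_iff] at hx ⊢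
  intro n
  rw [coeffMap_coeff]
  exact hφ _ (hx n)

end Ops

/-! ### the field `FF E M` -/

/-- the `E`-rational functions of level `M`. -/
def FF (E : Subfield Qb) (M : ℕ) : Subfield (LaurentSeries Qb) :=
  (FL Qb M).toSubfield ⊓ coeffField E

variable {E : Subfield Qb} {M : ℕ}

theorem mem_FF_iff {x : LaurentSeries Qb} : x ∈ FF E M ↔ x ∈ FL Qb M ∧ x ∈ coeffField E :=
  Iff.rfl

theorem C_mem_FL (M : ℕ) (c : Qb) : (HahnSeries.C c : LaurentSeries Qb) ∈ FL Qb M := by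
  rw [← algebraMap_eq_C]
  exact (FL Qb M).algebraMap_mem c

theorem C_mem_FF (M : ℕ) {c : Qb} (hc : c ∈ E) : (HahnSeries.C c : LaurentSeries Qb) ∈ FF E M :=
  ⟨C_mem_FL M c, C_mem_coeffField hc⟩

/-- the expansion map of `FF E M`. -/
abbrev iFF (E : Subfield Qb) (M : ℕ) : FF E M →+* LaurentSeries Qb := (FF E M).subtype

/-- **`Disc`** for `FF E M`, if `E` is discretely valued with uniformiser `π`. -/
theorem disc_FF (A : ValuationSubring Qb) {π : Qb} (hπE : π ∈ E) (hπ0 : π ≠ 0)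
    (hπm : π ∈ A.nonunits)
    (hdisc : ∀ c ∈ E, c ≠ 0 → ∃ n : ℤ, A.valuation c = A.valuation π ^ n) (M : ℕ) :
    Disc A π (iFF E M) where
  pi_ne := hπ0
  pi_mem := hπm
  exists_pi := ⟨⟨_, C_mem_FF M hπE⟩, rfl⟩
  norm := by
    intro x hx
    exact exists_zpow_hasRed hπ0 hdisc (laurentBaseChange_le_GField M x.2.1) x.2.2
      (fun h => hx (Subtype.ext h))
  const := by
    intro x cb h
    obtain ⟨c, hc, hcr⟩ := exists_cRed_of_hasRed_C (laurentBaseChange_le_GField M x.2.1) x.2.2 h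
    exact ⟨⟨_, C_mem_FF M hc⟩, c, rfl, hcr⟩

/-- `Disc` is invariant under automorphisms of the abstract field. -/
theorem Disc.comp_equiv {L : Type*} [Field L] {A : ValuationSubring L} {𝔽 𝔽' : Type*} [Field 𝔽]
    [Field 𝔽'] {π : L} {i : 𝔽 →+* LaurentSeries L} (D : Disc A π i) (e : 𝔽' ≃+* 𝔽) :
    Disc A π (i.comp (e : 𝔽' →+* 𝔽)) where
  pi_ne := D.pi_ne
  pi_mem := D.pi_mem
  exists_pi := by
    obtain ⟨ϖ, h⟩ := D.exists_pi
    exact ⟨e.symm ϖ, by simpa using h⟩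
  norm := by
    intro x hx
    exact D.norm (e x) ((map_ne_zero_iff _ e.injective).mpr hx)
  const := by
    intro x cb h
    obtain ⟨κ, c, h1, h2⟩ := D.const (e x) cb h
    exact ⟨e.symm κ, c, by simpa using h1, h2⟩

theorem galS_mem_FF {σ : GQ} (hσ : ∀ c ∈ E, σ c ∈ E) {x : LaurentSeries Qb} (hx : x ∈ FF E M) :
    galS σ x ∈ FF E M :=
  ⟨coeffMap_mem_laurentBaseChange σ hx.1, coeffMap_mem_coeffField hσ hx.2⟩

/-- **`FrobOn`** for `FF E M`, if `s E = E`. -/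
theorem frobOn_FF (A : ValuationSubring Qb) {p : ℕ} {s : GQ} (hs : A.IsFrobeniusAt s p)
    (h1 : ∀ c ∈ E, s c ∈ E) (h2 : ∀ c ∈ E, s.symm c ∈ E) (M : ℕ) :
    FrobOn A p s (iFF E M) where
  frob := hs
  lift x := ⟨⟨_, galS_mem_FF h1 x.2⟩, rfl⟩
  lift_symm x := ⟨⟨_, galS_mem_FF (σ := s.symm) h2 x.2⟩, rfl⟩

/-- `T_p` preserves `FF E M`, `p ∤ M`. -/
theorem heckeS_mem_FF [NeZero M] {p : ℕ} [NeZero p] (hp : p.Prime) (hpM : ¬ p ∣ M)
    {x : LaurentSeries Qb} (hx : x ∈ FF E M) : heckeS Qb p x ∈ FF E M :=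
  ⟨heckeS_mem_FL M p hp hpM hx.1, heckeS_mem_coeffField p hx.2⟩

/-- the hypothesis `hT` of `P2.weakFontaine`. -/
theorem formalT_lift_FF [NeZero M] {p : ℕ} [NeZero p] (hp : p.Prime) (hpM : ¬ p ∣ M) {ζ : Qbˣ}
    (hζ : IsPrimitiveRoot ζ p) (x : FF E M) :
    ∃ x' : FF E M, iFF E M x' = formalT p ζ (iFF E M x) :=
  ⟨⟨_, heckeS_mem_FF hp hpM x.2⟩, heckeS_eq_formalT p hζ _⟩

/-- `U_p` preserves `FF E (M₁ p)`. -/
theorem NmL_mem_FF {M₁ p : ℕ} [NeZero M₁] [NeZero p] (hp : p.Prime) (hpM : ¬ p ∣ M₁)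
    {x : LaurentSeries Qb} (hx : x ∈ FF E (M₁ * p)) : NmL Qb p x ∈ FF E (M₁ * p) :=
  ⟨TOR.GB.NmL_mem_FL hp hpM hx.1, NmL_mem_coeffField p hx.2⟩

/-! ### fixed fields -/

/-- the fixed field of a subgroup of `G_ℚ`. -/
def fixF (H : Subgroup GQ) : Subfield Qb := (IntermediateField.fixedField H).toSubfield

theorem mem_fixF_iff {H : Subgroup GQ} {c : Qb} : c ∈ fixF H ↔ ∀ σ ∈ H, σ c = c :=
  IntermediateField.mem_fixedField_iff H c

theorem mem_coeffField_fixF_iff {H : Subgroup GQ} {x : LaurentSeries Qb} :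
    x ∈ coeffField (fixF H) ↔ ∀ σ ∈ H, galS σ x = x := by
  rw [mem_coeffField_iff]
  constructor
  · intro h σ hσ
    ext n
    exact mem_fixF_iff.mp (h n) σ hσ
  · intro h n
    rw [mem_fixF_iff]
    intro σ hσ
    exact congrArg (fun f : LaurentSeries Qb => f.coeff n) (h σ hσ)

/-- an element normalising `H` preserves the fixed field. -/
theorem apply_mem_fixF {H : Subgroup GQ} {s : GQ} (hs : ∀ σ ∈ H, s⁻¹ * σ * s ∈ H) {c : Qb}
    (hc : c ∈ fixF H) : s c ∈ fixF H := by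
  rw [mem_fixF_iff] at hc ⊢
  intro σ hσ
  have h1 := hc _ (hs σ hσ)
  rw [AlgEquiv.mul_apply, AlgEquiv.mul_apply] at h1
  have h2 := congrArg s h1
  rwa [← AlgEquiv.mul_apply, mul_inv_cancel, AlgEquiv.one_apply] at h2

/-- `w_p` preserves `FF (fixF H) (M₁ p)`. -/
theorem wq_mem_FF {H : Subgroup GQ} {M₁ p : ℕ} [NeZero M₁] [NeZero p] (hp : p.Prime)
    (hpM : ¬ p ∣ M₁) (x : FL Qb (M₁ * p)) (hx : (x : LaurentSeries Qb) ∈ coeffField (fixF H)) :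
    ((TOR.GB.wq M₁ p x : FL Qb (M₁ * p)) : LaurentSeries Qb) ∈ FF (fixF H) (M₁ * p) := by
  refine mem_FF_iff.mpr ⟨(TOR.GB.wq M₁ p x).2, ?_⟩
  rw [mem_coeffField_fixF_iff] at hx ⊢
  intro σ hσ
  rw [← TOR.GB.coe_galF, ← TOR.GB.wq_galF hp hpM]
  congr 2
  exact Subtype.ext (hx σ hσ)

/-- the inclusion `FF E M → FL Qb M`. -/
def toFL (E : Subfield Qb) (M : ℕ) : FF E M →+* FL Qb M where
  toFun x := ⟨x, x.2.1⟩
  map_one' := rfl
  map_mul' _ _ := rfl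
  map_zero' := rfl
  map_add' _ _ := rfl

@[simp] theorem coe_toFL (x : FF E M) : ((toFL E M x : FL Qb M) : LaurentSeries Qb) = x := rfl

/-- `w_p` as an endomorphism of `FF (fixF H) (M₁ p)`. -/
def wqHom (H : Subgroup GQ) {M₁ p : ℕ} [NeZero M₁] [NeZero p] (hp : p.Prime) (hpM : ¬ p ∣ M₁) :
    FF (fixF H) (M₁ * p) →+* FF (fixF H) (M₁ * p) :=
  (((FL Qb (M₁ * p)).val : FL Qb (M₁ * p) →+* LaurentSeries Qb).comp
    ((TOR.GB.wq M₁ p : FL Qb (M₁ * p) →+* FL Qb (M₁ * p)).comp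
      (toFL (fixF H) (M₁ * p)))).codRestrict (FF (fixF H) (M₁ * p))
    fun x => wq_mem_FF hp hpM (toFL _ _ x) x.2.2

theorem coe_wqHom (H : Subgroup GQ) {M₁ p : ℕ} [NeZero M₁] [NeZero p] (hp : p.Prime)
    (hpM : ¬ p ∣ M₁) (x : FF (fixF H) (M₁ * p)) :
    ((wqHom H hp hpM x : FF (fixF H) (M₁ * p)) : LaurentSeries Qb)
      = ((TOR.GB.wq M₁ p (toFL _ _ x) : FL Qb (M₁ * p)) : LaurentSeries Qb) := rfl

theorem toFL_wqHom (H : Subgroup GQ) {M₁ p : ℕ} [NeZero M₁] [NeZero p] (hp : p.Prime)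
    (hpM : ¬ p ∣ M₁) (x : FF (fixF H) (M₁ * p)) :
    toFL _ _ (wqHom H hp hpM x) = TOR.GB.wq M₁ p (toFL _ _ x) := rfl

theorem wqHom_wqHom (H : Subgroup GQ) {M₁ p : ℕ} [NeZero M₁] [NeZero p] (hp : p.Prime)
    (hpM : ¬ p ∣ M₁) (x : FF (fixF H) (M₁ * p)) : wqHom H hp hpM (wqHom H hp hpM x) = x := by
  apply Subtype.ext
  rw [coe_wqHom, toFL_wqHom, TOR.GB.wq_wq hp hpM, coe_toFL]

/-- `w_p` as an automorphism of `FF (fixF H) (M₁ p)`. -/
def wqFF (H : Subgroup GQ) {M₁ p : ℕ} [NeZero M₁] [NeZero p] (hp : p.Prime) (hpM : ¬ p ∣ M₁) :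
    FF (fixF H) (M₁ * p) ≃+* FF (fixF H) (M₁ * p) :=
  RingEquiv.ofRingHom (wqHom H hp hpM) (wqHom H hp hpM)
    (RingHom.ext (wqHom_wqHom H hp hpM)) (RingHom.ext (wqHom_wqHom H hp hpM))

theorem coe_wqFF (H : Subgroup GQ) {M₁ p : ℕ} [NeZero M₁] [NeZero p] (hp : p.Prime)
    (hpM : ¬ p ∣ M₁) (x : FF (fixF H) (M₁ * p)) :
    ((wqFF H hp hpM x : FF (fixF H) (M₁ * p)) : LaurentSeries Qb)
      = ((TOR.GB.wq M₁ p (toFL _ _ x) : FL Qb (M₁ * p)) : LaurentSeries Qb) := rfl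

end Fermat.Agent.ORD.P3
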