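import Fermat.Agent.ORD.P3.FF
import Fermat.Agent.GR.CB.Smooth
import Fermat.Agent.Lib.FrobeniusExists

/-!
# ORD / P3 : fields of definition of formal Kummer generators; Hilbert 90 by an orbit sum
-/

set_option autoImplicit false
noncomputable section

namespace Fermat.Agent.ORD.P3

open ModularCurve HahnSeries Fermat.Agent.GR Fermat.Agent.GAL Fermat.Agent.ORD.P2

/-- an `n`-th root of `1` in `ℚ̄((q))` is a constant. -/
theorem exists_C_of_pow_eq_one {n : ℕ} (hn : n ≠ 0) {x : LaurentSeries Qb} (hx : x ^ n = 1) :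
    ∃ a : Qb, x = HahnSeries.C a := by
  have hint : IsIntegral Qb x :=
    ⟨Polynomial.X ^ n - Polynomial.C 1, Polynomial.monic_X_pow_sub_C 1 hn, by simp [hx]⟩
  have hdeg := IsAlgClosed.degree_eq_one_of_irreducible Qb (minpoly.irreducible hint)
  obtain ⟨a, rfl⟩ := minpoly.mem_range_of_degree_eq_one Qb x hdeg
  exact ⟨a, algebraMap_eq_C a⟩

/-- a formal `n`-th root of a modular function is fixed by a finite level. -/
theorem exists_level_of_pow_mem_FL (M : ℕ) {n : ℕ} (hn : n ≠ 0) {u : LaurentSeries Qb}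
    (hu : u ^ n ∈ FL Qb M) :
    ∃ K : IntermediateField ℚ Qb, FiniteDimensional ℚ K ∧
      ∀ σ : GQ, (∀ x ∈ K, σ x = x) → galS σ u = u := by
  have halg : Algebra.IsAlgebraic ℚ Qb := AlgebraicClosure.isAlgebraic ℚ
  rcases eq_or_ne u 0 with rfl | hu0
  · exact ⟨⊥, inferInstance, fun σ _ => map_zero _⟩
  obtain ⟨K, hK, H⟩ := CB.exists_level_FL M hu
  obtain ⟨m, hm⟩ : ∃ m, u.coeff m ≠ 0 := by
    by_contra hcon
    push Not at hcon
    exact hu0 (HahnSeries.ext (funext hcon))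
  have hfd : FiniteDimensional ℚ (IntermediateField.adjoin ℚ {u.coeff m}) :=
    IntermediateField.adjoin.finiteDimensional
      (Algebra.IsAlgebraic.isAlgebraic (R := ℚ) (u.coeff m)).isIntegral
  refine ⟨K ⊔ IntermediateField.adjoin ℚ {u.coeff m}, IntermediateField.finiteDimensional_sup _ _,
    fun σ hσ => ?_⟩
  have h1 := H σ fun a ha => hσ a ((le_sup_left : K ≤ K ⊔ _) ha)
  have h2 : σ (u.coeff m) = u.coeff m :=
    hσ _ ((le_sup_right : _ ≤ K ⊔ IntermediateField.adjoin ℚ {u.coeff m})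
      (IntermediateField.mem_adjoin_simple_self ℚ _))
  rw [map_pow] at h1
  have h3 : (galS σ u / u) ^ n = 1 := by
    rw [div_pow, h1, div_self (pow_ne_zero _ hu0)]
  obtain ⟨a, ha⟩ := exists_C_of_pow_eq_one hn h3
  have h4 : galS σ u = HahnSeries.C a * u := by
    rw [← ha, div_mul_cancel₀ _ hu0]
  have h5 := congrArg (fun f : LaurentSeries Qb => f.coeff m) h4
  simp only [HahnSeries.C_mul_eq_smul, HahnSeries.coeff_smul, smul_eq_mul] at h5
  have h6 : (galS σ u).coeff m = σ (u.coeff m) := rfl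
  rw [h6, h2] at h5
  have h7 : a = 1 := by
    have := mul_right_cancel₀ hm (h5.symm.trans (one_mul _).symm)
    exact this
  rw [h4, h7, map_one, one_mul]

theorem fixF_fixingSubgroup (K : IntermediateField ℚ Qb) :
    fixF K.fixingSubgroup = K.toSubfield := by
  have : IsGalois ℚ Qb := Fermat.Agent.Lib.FrobeniusExists.isGalois_algebraicClosure_rat
  rw [fixF, InfiniteGalois.fixedField_fixingSubgroup]

theorem mem_coeffField_toSubfield_iff (K : IntermediateField ℚ Qb) {x : LaurentSeries Qb} :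
    x ∈ coeffField K.toSubfield ↔ ∀ σ : GQ, (∀ c ∈ K, σ c = c) → galS σ x = x := by
  rw [← fixF_fixingSubgroup, mem_coeffField_fixF_iff]
  refine forall_congr' fun σ => ?_
  rw [IntermediateField.mem_fixingSubgroup_iff]

/-- **field of definition**: a formal `n`-th root `u` of a modular function has its coefficients in
a finite Galois extension `K/ℚ`, which can be chosen to contain a given number field. -/
theorem exists_galois_level (M : ℕ) {n : ℕ} (hn : n ≠ 0) {u : LaurentSeries Qb}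
    (hu : u ^ n ∈ FL Qb M) (K₀ : IntermediateField ℚ Qb) [FiniteDimensional ℚ K₀] :
    ∃ K : IntermediateField ℚ Qb, FiniteDimensional ℚ K ∧ IsGalois ℚ K ∧ K₀ ≤ K ∧
      u ∈ coeffField K.toSubfield := by
  have hgal : IsGalois ℚ Qb := Fermat.Agent.Lib.FrobeniusExists.isGalois_algebraicClosure_rat
  obtain ⟨K₁, hK₁, H⟩ := exists_level_of_pow_mem_FL M hn hu
  have hfd : FiniteDimensional ℚ (K₀ ⊔ K₁ : IntermediateField ℚ Qb) :=
    IntermediateField.finiteDimensional_sup _ _
  have hnor : Normal ℚ (IntermediateField.normalClosure ℚ (K₀ ⊔ K₁ : IntermediateField ℚ Qb) Qb) :=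
    normalClosure.normal ℚ _ Qb
  refine ⟨IntermediateField.normalClosure ℚ (K₀ ⊔ K₁ : IntermediateField ℚ Qb) Qb,
    normalClosure.is_finiteDimensional ℚ _ Qb, isGalois_iff.mpr ⟨inferInstance, hnor⟩,
    le_sup_left.trans (IntermediateField.le_normalClosure _), ?_⟩
  rw [mem_coeffField_toSubfield_iff]
  intro σ hσ
  exact H σ fun x hx => hσ x ((le_sup_right.trans (IntermediateField.le_normalClosure _)) hx)

/-- a Galois number field is stable under `G_ℚ`. -/
theorem apply_mem_of_isGalois (K : IntermediateField ℚ Qb) [IsGalois ℚ K] (s : GQ) {c : Qb}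
    (hc : c ∈ K) : s c ∈ K := by
  have hgal : IsGalois ℚ Qb := Fermat.Agent.Lib.FrobeniusExists.isGalois_algebraicClosure_rat
  have hn : Normal ℚ K := IsGalois.to_normal
  have h := (IntermediateField.normal_iff_forall_map_le' (K := K)).mp hn s
  exact h ⟨c, hc, rfl⟩

/-- the `G_ℚ`-orbit of a series fixed by a finite level is finite. -/
theorem finite_orbit_galS {u : LaurentSeries Qb} (K : IntermediateField ℚ Qb)
    [FiniteDimensional ℚ K] (hK : ∀ σ : GQ, (∀ x ∈ K, σ x = x) → galS σ u = u) :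
    (Set.range fun σ : GQ => galS σ u).Finite := by
  classical
  let r : GQ → (K →ₐ[ℚ] Qb) := fun g => (g : Qb →ₐ[ℚ] Qb).comp K.val
  have hmul : ∀ g g' : GQ, galS (g * g') u = galS g (galS g' u) := by
    intro g g'
    ext k
    rfl
  have hr : ∀ g g' : GQ, r g = r g' → galS g u = galS g' u := by
    intro g g' h
    have h1 : ∀ y ∈ K, (g⁻¹ * g') y = y := by
      intro y hy
      have h2 : g y = g' y := DFunLike.congr_fun h (⟨y, hy⟩ : K)
      show g⁻¹ (g' y) = y
      rw [← h2]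
      exact g.symm_apply_apply y
    have h3 := hK _ h1
    calc galS g u = galS g (galS (g⁻¹ * g') u) := by rw [h3]
      _ = galS g' u := by rw [← hmul, mul_inv_cancel_left]
  let F : (K →ₐ[ℚ] Qb) → LaurentSeries Qb :=
    fun φ => if h : ∃ g, r g = φ then galS h.choose u else 0
  refine (Set.finite_range F).subset ?_
  rintro _ ⟨g, rfl⟩
  have hex : ∃ g', r g' = r g := ⟨g, rfl⟩
  refine ⟨r g, ?_⟩
  show (if h : ∃ g', r g' = r g then galS h.choose u else 0) = galS g u
  rw [dif_pos hex]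
  exact hr _ _ hex.choose_spec

/-- **Hilbert 90 by an orbit sum** (D5 of the plan): if the class of `u` modulo `FL Qb M` is fixed
by `H`, then `u` can be multiplied by an element of `FL Qb M` so that it becomes fixed by `H`. -/
theorem exists_fixed_mul (M : ℕ) {n : ℕ} (hn : n ≠ 0) (H : Subgroup GQ) {u : LaurentSeries Qb}
    (hu0 : u ≠ 0) (hun : u ^ n ∈ FL Qb M) (hH : ∀ τ ∈ H, galS τ u / u ∈ FL Qb M) :
    ∃ f ∈ FL Qb M, f ≠ 0 ∧ ∀ τ ∈ H, galS τ (u * f) = u * f := by
  classical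
  obtain ⟨m, hm⟩ : ∃ m, u.coeff m ≠ 0 := by
    by_contra hcon
    push Not at hcon
    exact hu0 (HahnSeries.ext (funext hcon))
  set c : Qb := u.coeff m with hc
  set u₁ : LaurentSeries Qb := HahnSeries.C c⁻¹ * u with hu₁
  have hC0 : (HahnSeries.C c⁻¹ : LaurentSeries Qb) ≠ 0 := C_ne_zero' (inv_ne_zero hm)
  have hu₁0 : u₁ ≠ 0 := mul_ne_zero hC0 hu0
  have hu₁m : u₁.coeff m = 1 := by
    rw [hu₁, HahnSeries.C_mul_eq_smul, HahnSeries.coeff_smul, smul_eq_mul, ← hc,
      inv_mul_cancel₀ hm]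
  have hu₁n : u₁ ^ n ∈ FL Qb M := by
    rw [hu₁, mul_pow]
    exact mul_mem (pow_mem (C_mem_FL M _) n) hun
  have hgC : ∀ (τ : GQ) (a : Qb), galS τ (HahnSeries.C a) = HahnSeries.C (τ a) := fun τ a =>
    coeffMap_C _ a
  have hH₁ : ∀ τ ∈ H, galS τ u₁ / u₁ ∈ FL Qb M := by
    intro τ hτ
    have h1 : galS τ u₁ / u₁ = HahnSeries.C (τ c⁻¹) * HahnSeries.C c * (galS τ u / u) := by
      rw [hu₁, map_mul, hgC]
      have h2 : (HahnSeries.C c : LaurentSeries Qb) = (HahnSeries.C c⁻¹ : LaurentSeries Qb)⁻¹ := by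
        rw [map_inv₀, inv_inv]
      rw [h2, mul_div_mul_comm, div_eq_mul_inv (HahnSeries.C (τ c⁻¹) : LaurentSeries Qb)]
    rw [h1]
    exact mul_mem (mul_mem (C_mem_FL M _) (C_mem_FL M _)) (hH τ hτ)
  obtain ⟨K, hK, hKfix⟩ := exists_level_of_pow_mem_FL M hn hu₁n
  have hfin : (Set.range fun τ : H => galS (τ : GQ) u₁).Finite := by
    refine (finite_orbit_galS K hKfix).subset ?_
    rintro _ ⟨τ, rfl⟩
    exact ⟨τ, rfl⟩
  set O : Finset (LaurentSeries Qb) := hfin.toFinset with hO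
  have hmemO : ∀ w, w ∈ O ↔ ∃ τ ∈ H, galS τ u₁ = w := by
    intro w
    rw [hO, Set.Finite.mem_toFinset]
    constructor
    · rintro ⟨τ, rfl⟩
      exact ⟨τ, τ.2, rfl⟩
    · rintro ⟨τ, hτ, rfl⟩
      exact ⟨⟨τ, hτ⟩, rfl⟩
  have hmul : ∀ (g g' : GQ) (x : LaurentSeries Qb), galS (g * g') x = galS g (galS g' x) := by
    intro g g' x
    ext k
    rfl
  have hinj : ∀ τ : GQ, Function.Injective (galS τ) := fun τ => (galS τ).injective
  set u' : LaurentSeries Qb := ∑ w ∈ O, w with hu'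
  have hfix : ∀ τ ∈ H, galS τ u' = u' := by
    intro τ hτ
    have himg : O.image (galS τ) = O := by
      apply Finset.eq_of_subset_of_card_le
      · intro w hw
        obtain ⟨w', hw', rfl⟩ := Finset.mem_image.mp hw
        obtain ⟨τ', hτ', rfl⟩ := (hmemO _).mp hw'
        exact (hmemO _).mpr ⟨τ * τ', mul_mem hτ hτ', hmul _ _ _⟩
      · rw [Finset.card_image_of_injective _ (hinj τ)]
    rw [hu', map_sum]
    conv_rhs => rw [← himg]
    rw [Finset.sum_image fun a _ b _ h => hinj τ h]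
  have hcoeff : u'.coeff m = (O.card : Qb) := by
    rw [hu', HahnSeries.coeff_sum]
    rw [Finset.sum_congr rfl (g := fun _ => (1 : Qb))]
    · simp
    · intro w hw
      obtain ⟨τ, -, rfl⟩ := (hmemO _).mp hw
      show τ (u₁.coeff m) = 1
      rw [hu₁m, map_one]
  have hOne : O.Nonempty := ⟨u₁, (hmemO _).mpr ⟨1, one_mem H, by ext k; rfl⟩⟩
  have hu'0 : u' ≠ 0 := by
    intro h0
    rw [h0, HahnSeries.coeff_zero] at hcoeff
    have : (O.card : Qb) ≠ 0 := by exact_mod_cast hOne.card_pos.ne'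
    exact this hcoeff.symm
  set f₁ : LaurentSeries Qb := ∑ w ∈ O, w / u₁ with hf₁
  have hf₁mem : f₁ ∈ FL Qb M := by
    refine sum_mem fun w hw => ?_
    obtain ⟨τ, hτ, rfl⟩ := (hmemO _).mp hw
    exact hH₁ τ hτ
  have huf : u * (HahnSeries.C c⁻¹ * f₁) = u' := by
    rw [← mul_assoc, mul_comm u, ← hu₁, hf₁, Finset.mul_sum, hu']
    exact Finset.sum_congr rfl fun w _ => mul_div_cancel₀ _ hu₁0
  refine ⟨HahnSeries.C c⁻¹ * f₁, mul_mem (C_mem_FL M _) hf₁mem, ?_, ?_⟩
  · intro h0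
    rw [h0, mul_zero] at huf
    exact hu'0 huf.symm
  · intro τ hτ
    rw [huf]
    exact hfix τ hτ

end Fermat.Agent.ORD.P3
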