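import Fermat.Agent.ORD.P3.Arith
import Fermat.Agent.ORD.P3.Level
import Fermat.Agent.ORD.P2.Lam

/-!
# ORD / P3 : the two concrete fields of `q`-expansions

* `FF (fixF (H1 A ζ)) M`, `H₁ = {τ ∈ I_A | τ ζ_p = ζ_p}` : discretely valued with uniformiser
  `λ = ζ_p - 1`, stable under the decomposition group (for (WF));
* `FF (fixF K.fixingSubgroup) M = FF K.toSubfield M`, `K/ℚ` a finite Galois extension (for (CORE)).
-/

set_option autoImplicit false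
noncomputable section

namespace Fermat.Agent.ORD.P3

open ModularCurve HahnSeries Fermat.Agent.GR Fermat.Agent.GAL Fermat.Agent.ORD.P2

/-- `H₁ = {τ ∈ I_A | τ ζ = ζ}`. -/
def H1 (A : ValuationSubring Qb) (ζ : Qb) : Subgroup GQ where
  carrier := {τ | τ ∈ A.inertiaSubgroupIn ℚ ∧ τ ζ = ζ}
  mul_mem' := by
    rintro a b ⟨ha, ha'⟩ ⟨hb, hb'⟩
    exact ⟨mul_mem ha hb, by rw [AlgEquiv.mul_apply, hb', ha']⟩
  one_mem' := ⟨one_mem _, rfl⟩
  inv_mem' := by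
    rintro a ⟨ha, ha'⟩
    refine ⟨inv_mem ha, ?_⟩
    conv_lhs => rw [← ha']
    exact a.symm_apply_apply ζ

theorem mem_H1_iff {A : ValuationSubring Qb} {ζ : Qb} {τ : GQ} :
    τ ∈ H1 A ζ ↔ τ ∈ A.inertiaSubgroupIn ℚ ∧ τ ζ = ζ := Iff.rfl

/-- the decomposition group normalises `H₁`. -/
theorem conj_mem_H1 {A : ValuationSubring Qb} {p : ℕ} (hp : 0 < p) {ζ : Qb}
    (hζ : IsPrimitiveRoot ζ p) {s : GQ} (hs : s ∈ A.decompositionSubgroup ℚ) {σ : GQ}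
    (hσ : σ ∈ H1 A ζ) : s⁻¹ * σ * s ∈ H1 A ζ := by
  obtain ⟨h1, h2⟩ := hσ
  refine ⟨?_, ?_⟩
  · have := Fermat.Agent.S55.P.conj_mem_inertiaSubgroupIn A (inv_mem hs) h1
    rwa [inv_inv] at this
  · have h3 : (s ζ) ^ p = 1 := by rw [← map_pow, hζ.pow_eq_one, map_one]
    have : NeZero p := ⟨hp.ne'⟩
    obtain ⟨a, -, ha⟩ := hζ.eq_pow_of_pow_eq_one h3
    rw [AlgEquiv.mul_apply, AlgEquiv.mul_apply, ← ha, map_pow, h2, ha]
    exact s.symm_apply_apply ζ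

theorem apply_mem_fixF_H1 {A : ValuationSubring Qb} {p : ℕ} (hp : 0 < p) {ζ : Qb}
    (hζ : IsPrimitiveRoot ζ p) {s : GQ} (hs : s ∈ A.decompositionSubgroup ℚ) {c : Qb}
    (hc : c ∈ fixF (H1 A ζ)) : s c ∈ fixF (H1 A ζ) :=
  apply_mem_fixF (fun _ hσ => conj_mem_H1 hp hζ hs hσ) hc

theorem zeta_mem_fixF_H1 (A : ValuationSubring Qb) (ζ : Qb) : ζ ∈ fixF (H1 A ζ) :=
  mem_fixF_iff.mpr fun _ hσ => hσ.2

/-- **`Disc`** for the field of (WF). -/
theorem disc_H1 (A : ValuationSubring Qb) {p : ℕ} (hp : p.Prime) (hA : A.LiesOverPrime p)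
    {ζ : Qbˣ} (hζ : IsPrimitiveRoot ζ p) (M : ℕ) :
    Disc A (lam ζ) (iFF (fixF (H1 A (ζ : Qb))) M) := by
  have hζ' : IsPrimitiveRoot (ζ : Qb) p := hζ.map_of_injective (f := Units.coeHom Qb) Units.val_injective
  refine disc_FF A (sub_mem (zeta_mem_fixF_H1 A ζ) (one_mem _)) (lam_ne_zero hp hζ)
    (lam_mem_nonunits hp hA hζ.pow_eq_one) ?_ M
  intro c hc hc0
  exact V0 A hp hA hζ' hc0 fun τ hτ hτζ => mem_fixF_iff.mp hc τ ⟨hτ, hτζ⟩

/-- **`FrobOn`** for the field of (WF). -/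
theorem frobOn_H1 (A : ValuationSubring Qb) {p : ℕ} (hp : 0 < p) {ζ : Qb}
    (hζ : IsPrimitiveRoot ζ p) {s : GQ} (hs : A.IsFrobeniusAt s p) (M : ℕ) :
    FrobOn A p s (iFF (fixF (H1 A ζ)) M) :=
  frobOn_FF A hs (fun _ hc => apply_mem_fixF_H1 hp hζ hs.mem_decompositionSubgroup hc)
    (fun _ hc => apply_mem_fixF_H1 (s := s⁻¹) hp hζ (inv_mem hs.mem_decompositionSubgroup) hc) M

/-- **`Disc`** for the field of (CORE). -/
theorem exists_disc_numberField (A : ValuationSubring Qb) {p : ℕ} (hp : p.Prime)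
    (hA : A.LiesOverPrime p) (K : IntermediateField ℚ Qb) [FiniteDimensional ℚ K] :
    ∃ π ∈ K, (∀ x ∈ K, x ≠ 0 → ∃ n : ℤ, A.valuation x = A.valuation π ^ n) ∧
      ∀ M : ℕ, Disc A π (iFF (fixF K.fixingSubgroup) M) := by
  obtain ⟨π, hπK, hπ0, hπm, hdisc⟩ := exists_uniformizer K A hp hA
  refine ⟨π, hπK, hdisc, fun M => ?_⟩
  rw [fixF_fixingSubgroup]
  exact disc_FF A hπK hπ0 hπm hdisc M

/-- an element of `𝔪_A ∩ K` is a unit times a positive power of the uniformiser. -/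
theorem exists_pos_pow_of_mem_nonunits {A : ValuationSubring Qb} {π x : Qb}
    (hπm : π ∈ A.nonunits) (hπ0 : π ≠ 0) (hx : x ∈ A.nonunits) {n : ℤ}
    (hn : A.valuation x = A.valuation π ^ n) : 0 < n := by
  rw [ValuationSubring.mem_nonunits_iff] at hπm hx
  by_contra hcon
  rw [not_lt] at hcon
  have h0 : A.valuation π ≠ 0 := (map_ne_zero _).mpr hπ0
  have h1 : 1 ≤ A.valuation π ^ n := by
    obtain ⟨k, rfl⟩ : ∃ k : ℕ, n = -(k : ℤ) := ⟨(-n).toNat, by omega⟩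
    rw [zpow_neg, zpow_natCast]
    exact (one_le_inv₀ (zero_lt_iff.mpr (pow_ne_zero _ h0))).mpr (pow_le_one₀ zero_le hπm.le)
  rw [← hn] at h1
  exact absurd hx (not_lt.mpr h1)

/-- **`FrobOn`** for the field of (CORE). -/
theorem frobOn_numberField (A : ValuationSubring Qb) {p : ℕ} (K : IntermediateField ℚ Qb)
    [IsGalois ℚ K] {s : GQ} (hs : A.IsFrobeniusAt s p) (M : ℕ) :
    FrobOn A p s (iFF (fixF K.fixingSubgroup) M) := by
  rw [fixF_fixingSubgroup]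
  exact frobOn_FF A hs (fun _ hc => apply_mem_of_isGalois K s hc)
    (fun _ hc => apply_mem_of_isGalois K s.symm hc) M

end Fermat.Agent.ORD.P3
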