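import Fermat.Agent.ORD.P2.TopWF
import Fermat.Agent.ORD.P3.Inst
import Fermat.Agent.ORD.Contracts

/-!
# ORD / P3 : the contract `ORD.WFStatement` ("weak Fontaine")
-/

set_option autoImplicit false
noncomputable section

namespace Fermat.Agent.ORD.P3

open ModularCurve HahnSeries Fermat.Agent.GR Fermat.Agent.GAL Fermat.Agent.ORD.P2

/-- **(WF)**. -/
theorem wf : WFStatement := by
  intro M₁ p _ hM0 hM hp hp2 hpM A hA u hu hTu hH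
  have : NeZero M₁ := ⟨hM0⟩
  obtain ⟨ζ, hζ⟩ := exists_primitiveRoot_Qb p
  obtain ⟨s, hs⟩ := Fermat.Agent.Lib.FrobeniusExists.exists_isFrobeniusAt_rat A hp hA
  have hζ' : IsPrimitiveRoot (ζ : Qb) p :=
    hζ.map_of_injective (f := Units.coeHom Qb) Units.val_injective
  have hH' : ∀ τ ∈ A.inertiaSubgroupIn ℚ, τ (ζ : Qb) = ζ → galS τ u / u ∈ FL Qb M₁ := by
    intro τ hτ h
    refine hH τ hτ fun ξ hξ => ?_
    obtain ⟨a, -, rfl⟩ := hζ'.eq_pow_of_pow_eq_one hξ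
    rw [map_pow, h]
  refine wf_top hM hp hp2 hpM hA hζ
    ⟨s, FF (fixF (H1 A (ζ : Qb))) M₁, ?_, disc_H1 A hp hA hζ M₁, frobOn_H1 A hp.pos hζ' hs M₁⟩
    ?_ hu hTu hH'
  · intro x
    rw [mem_FF_iff, mem_coeffField_fixF_iff]
    exact and_congr_right fun _ =>
      ⟨fun h τ hτ hτζ => h τ ⟨hτ, hτζ⟩, fun h τ hτ => h τ hτ.1 hτ.2⟩
  · intro v hv hvH
    obtain ⟨f, hf, hf0, hfix⟩ := exists_fixed_mul M₁ hp.ne_zero (H1 A (ζ : Qb)) hv.1 hv.2.1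
      (fun τ hτ => hvH τ hτ.1 hτ.2)
    exact ⟨f, hf, hf0, fun τ hτ hτζ => hfix τ ⟨hτ, hτζ⟩⟩

end Fermat.Agent.ORD.P3
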